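import Mathlib.NumberTheory.NumberField.Cyclotomic.Basic
import Mathlib.NumberTheory.NumberField.Cyclotomic.Ideal
import Mathlib.RingTheory.RootsOfUnity.CyclotomicUnits
import Mathlib.RingTheory.DedekindDomain.Ideal.Lemmas
import Mathlib.Algebra.CharP.Lemmas

/-!
# Preparations for Kummer's descent in `𝓞 (ℚ(ζ_p))`

Congruences to integers modulo `ζ - 1` and of `p`-th powers modulo `p`, and cancellation of
powers in divisibility of ideals.  Used in `Regular.CaseTwo`.
-/

set_option autoImplicit false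

open NumberField

namespace FLTAgent.Regular

section Cyclo

variable {p : ℕ} [hp : Fact p.Prime] {K : Type*} [Field K] [NumberField K]
  [hK : IsCyclotomicExtension {p} ℚ K] {ζ : K} (hζ : IsPrimitiveRoot ζ p)

include hK

/-- Every element is congruent to an integer modulo `ζ - 1`. -/
theorem exists_int_zeta_sub_one_dvd_sub (x : 𝓞 K) :
    ∃ n : ℤ, hζ.toInteger - 1 ∣ x - (n : 𝓞 K) := by
  have hgen : Algebra.adjoin ℤ ({hζ.toInteger} : Set (𝓞 K)) = ⊤ := by
    rw [← hζ.integralPowerBasis_gen]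
    exact hζ.integralPowerBasis.adjoin_gen_eq_top
  have hx : x ∈ Algebra.adjoin ℤ ({hζ.toInteger} : Set (𝓞 K)) := by
    rw [hgen]
    exact Algebra.mem_top
  induction hx using Algebra.adjoin_induction with
  | mem a ha =>
    rw [Set.mem_singleton_iff.1 ha]
    exact ⟨1, by simp⟩
  | algebraMap r => exact ⟨r, by simp⟩
  | add a b _ _ iha ihb =>
    obtain ⟨m, hm⟩ := iha
    obtain ⟨n, hn⟩ := ihb
    refine ⟨m + n, ?_⟩
    have : a + b - ((m + n : ℤ) : 𝓞 K) = (a - m) + (b - n) := by push_cast; ring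
    rw [this]
    exact dvd_add hm hn
  | mul a b _ _ iha ihb =>
    obtain ⟨m, hm⟩ := iha
    obtain ⟨n, hn⟩ := ihb
    refine ⟨m * n, ?_⟩
    have : a * b - ((m * n : ℤ) : 𝓞 K) = (a - m) * b + (m : 𝓞 K) * (b - n) := by
      push_cast; ring
    rw [this]
    exact dvd_add (dvd_mul_of_dvd_left hm _) (dvd_mul_of_dvd_right hn _)

/-- A `p`-th power is congruent to an integer modulo `p`. -/
theorem exists_int_dvd_pow_sub (x : 𝓞 K) :
    ∃ n : ℤ, (p : 𝓞 K) ∣ x ^ p - (n : 𝓞 K) := by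
  have hz : ∃ ζ : K, IsPrimitiveRoot ζ p :=
    ⟨_, IsCyclotomicExtension.zeta_spec p ℚ K⟩
  obtain ⟨ζ, hζ⟩ := hz
  obtain ⟨n, t, ht⟩ := exists_int_zeta_sub_one_dvd_sub hζ x
  have hx : x = (n : 𝓞 K) + (hζ.toInteger - 1) * t := by rw [← ht]; ring
  obtain ⟨r, hr⟩ := exists_add_pow_prime_eq hp.out (n : 𝓞 K) ((hζ.toInteger - 1) * t)
  refine ⟨n ^ p, ?_⟩
  rw [hx, hr]
  have hpi : (p : 𝓞 K) ∣ ((hζ.toInteger - 1) * t) ^ p := by
    rw [mul_pow]
    refine dvd_mul_of_dvd_left ?_ _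
    have := (IsCyclotomicExtension.Rat.associated_zeta_sub_one_pow_prime p hζ).symm.dvd
    exact this.trans (pow_dvd_pow _ (Nat.sub_le _ _))
  push_cast
  obtain ⟨s, hs⟩ := hpi
  rw [hs]
  exact ⟨s + (n : 𝓞 K) * ((hζ.toInteger - 1) * t) * r, by ring⟩

end Cyclo

/-- In a Dedekind domain, `I ^ n ∣ J ^ n` implies `I ∣ J`. -/
theorem ideal_dvd_of_pow_dvd_pow {R : Type*} [CommRing R] [IsDedekindDomain R] {I J : Ideal R}
    {n : ℕ} (hn : n ≠ 0) (hI : I ≠ ⊥) (hJ : J ≠ ⊥) (h : I ^ n ∣ J ^ n) : I ∣ J := by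
  classical
  have hI' : I ≠ 0 := hI
  have hJ' : J ≠ 0 := hJ
  rw [UniqueFactorizationMonoid.dvd_iff_normalizedFactors_le_normalizedFactors
    (pow_ne_zero n hI') (pow_ne_zero n hJ'), UniqueFactorizationMonoid.normalizedFactors_pow,
    UniqueFactorizationMonoid.normalizedFactors_pow] at h
  rw [UniqueFactorizationMonoid.dvd_iff_normalizedFactors_le_normalizedFactors hI' hJ',
    Multiset.le_iff_count]
  intro a
  have := Multiset.le_iff_count.1 h a
  simp only [Multiset.count_nsmul] at this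
  exact Nat.le_of_mul_le_mul_left this (Nat.pos_of_ne_zero hn)

end FLTAgent.Regular
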