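import Fermat.Agent.Regular.CyclotomicPrep
import Mathlib.RingTheory.IntegralDomain
import Mathlib.RingTheory.Polynomial.Cyclotomic.Basic
import Mathlib.Tactic.LinearCombination

/-!
# Case II of Fermat's Last Theorem for regular primes (Kummer's descent)

Hypotheses: `hreg` (an ideal of `𝓞 (ℚ(ζ_p))` whose `p`-th power is principal is principal) and
`hkummer` (Kummer's lemma: a unit congruent to an integer modulo `p` is a `p`-th power).
-/

set_option autoImplicit false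

open NumberField Polynomial Finset

namespace FLTAgent.Regular

variable {p : ℕ} [hp : Fact p.Prime] {K : Type*} [Field K] [NumberField K]
  [hK : IsCyclotomicExtension {p} ℚ K] {ζ : K} (hζ : IsPrimitiveRoot ζ p)

local notation "π" => (hζ.toInteger - 1)
local notation "𝒵" => (nthRootsFinset p (1 : 𝓞 K))

include hK hζ in
/-- Product decomposition and coprimality: away from the common gcd, each factor is a `p`-th
power of an ideal, hence `F η * B ^ (p - 1)` is a unit times a `p`-th power. -/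
theorem factor_eq_unit_mul_pow
    (hreg : ∀ I : Ideal (𝓞 K), (I ^ p).IsPrincipal → I.IsPrincipal)
    {k : ℕ} {x y z : 𝓞 K} {ε : (𝓞 K)ˣ} (hy : ¬ π ∣ y)
    {A F : 𝓞 K → 𝓞 K} (hA : ∀ η ∈ 𝒵, x + η * y = π * A η)
    (hAF : ∀ η ∈ 𝒵, ∃ j ≤ k, A η = π ^ j * F η)
    (hF : ∏ η ∈ 𝒵, F η = (ε : 𝓞 K) * z ^ p) (hz : z ≠ 0)
    {η : 𝓞 K} (hη : η ∈ 𝒵) :
    ∃ (u : (𝓞 K)ˣ) (a : 𝓞 K), F η * F 1 ^ (p - 1) = (u : 𝓞 K) * a ^ p := by
  classical
  have hprim := hζ.toInteger_isPrimitiveRoot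
  have h1 : (1 : 𝓞 K) ∈ 𝒵 := by simp [mem_nthRootsFinset hp.out.pos]
  set 𝔪 : Ideal (𝓞 K) := Ideal.span {x, y} with h𝔪
  have hy0 : y ≠ 0 := fun h => hy (h ▸ dvd_zero _)
  have h𝔪0 : 𝔪 ≠ ⊥ := fun h => hy0 <| by
    have : y ∈ 𝔪 := Ideal.subset_span (by simp)
    rw [h, Ideal.mem_bot] at this
    exact this
  have hxm : x ∈ 𝔪 := Ideal.subset_span (by simp)
  have hym : y ∈ 𝔪 := Ideal.subset_span (by simp)
  -- `π` is prime to `y`
  have hcop : ∀ j : ℕ, IsCoprime (π ^ j) y := fun j =>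
    ((IsCyclotomicExtension.Rat.isCoprime_of_not_zeta_sub_one_dvd p hζ hy).of_isCoprime_of_dvd_left
      hζ.toInteger_sub_one_dvd_prime').pow_left
  have hmem : ∀ μ ∈ 𝒵, F μ ∈ 𝔪 := fun μ hμ => by
    obtain ⟨j, -, hj⟩ := hAF μ hμ
    obtain ⟨a, b, hab⟩ := hcop (j + 1)
    have h' : π ^ (j + 1) * F μ ∈ 𝔪 := by
      rw [pow_succ', mul_assoc, ← hj, ← hA μ hμ]
      exact 𝔪.add_mem hxm (𝔪.mul_mem_left _ hym)
    have : F μ = a * (π ^ (j + 1) * F μ) + (b * F μ) * y := by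
      linear_combination (-(F μ)) * hab
    rw [this]
    exact 𝔪.add_mem (𝔪.mul_mem_left _ h') (𝔪.mul_mem_left _ hym)
  have hdvd : ∀ μ ∈ 𝒵, ∃ C : Ideal (𝓞 K), Ideal.span {F μ} = 𝔪 * C := fun μ hμ =>
    Ideal.dvd_iff_le.2 ((Ideal.span_singleton_le_iff_mem _).2 (hmem μ hμ))
  choose! C hC using hdvd
  have hpair : ∀ μ ∈ 𝒵, ∀ ν ∈ 𝒵, μ ≠ ν → IsCoprime (C μ) (C ν) := by
    intro μ hμ ν hν hne
    rw [Ideal.isCoprime_iff_sup_eq]
    have hJ : 𝔪 * (C μ ⊔ C ν) = 𝔪 := by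
      refine le_antisymm Ideal.mul_le_left ?_
      rw [Ideal.mul_sup, ← hC μ hμ, ← hC ν hν]
      set J : Ideal (𝓞 K) := Ideal.span {F μ} ⊔ Ideal.span {F ν}
      have hAμ : A μ ∈ J := by
        obtain ⟨j, -, hj⟩ := hAF μ hμ
        rw [hj]
        exact J.mul_mem_left _ (Ideal.mem_sup_left (Ideal.mem_span_singleton_self _))
      have hAν : A ν ∈ J := by
        obtain ⟨j, -, hj⟩ := hAF ν hν
        rw [hj]
        exact J.mul_mem_left _ (Ideal.mem_sup_right (Ideal.mem_span_singleton_self _))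
      obtain ⟨w, hw⟩ := hprim.nthRootsFinset_pairwise_associated_sub_one_sub_of_prime hp.out
        hμ hν hne
      have hAA : (w : 𝓞 K) * y = A μ - A ν := by
        refine mul_left_cancel₀ (hζ.zeta_sub_one_prime').ne_zero ?_
        linear_combination hA μ hμ - hA ν hν + y * hw
      have hyJ : y ∈ J := by
        have := J.mul_mem_left ((w⁻¹ : (𝓞 K)ˣ) : 𝓞 K) (J.sub_mem hAμ hAν)
        rwa [← hAA, Units.inv_mul_cancel_left] at this
      have hxJ : x ∈ J := by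
        have : x = π * A μ - μ * y := by linear_combination hA μ hμ
        rw [this]
        exact J.sub_mem (J.mul_mem_left _ hAμ) (J.mul_mem_left _ hyJ)
      rw [h𝔪, Ideal.span_le]
      intro a ha
      rcases ha with rfl | rfl
      · exact hxJ
      · exact hyJ
    have hm0 : 𝔪 ≠ 0 := h𝔪0
    have := mul_left_cancel₀ hm0 (hJ.trans (mul_one 𝔪).symm)
    rw [this, Ideal.one_eq_top]
  have hprod : 𝔪 ^ p * ∏ μ ∈ 𝒵, C μ = Ideal.span {z} ^ p := by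
    calc 𝔪 ^ p * ∏ μ ∈ 𝒵, C μ = ∏ μ ∈ 𝒵, Ideal.span {F μ} := by
          rw [Finset.prod_congr rfl (fun μ hμ => hC μ hμ), Finset.prod_mul_distrib,
            Finset.prod_const, hprim.card_nthRootsFinset]
      _ = Ideal.span {∏ μ ∈ 𝒵, F μ} := Ideal.prod_span_singleton _ _
      _ = Ideal.span {z} ^ p := by
          rw [hF, Ideal.span_singleton_mul_left_unit ε.isUnit, Ideal.span_singleton_pow]
  have hz' : Ideal.span {z} ≠ (⊥ : Ideal (𝓞 K)) := by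
    rwa [Ne, Ideal.span_singleton_eq_bot]
  obtain ⟨W, hW⟩ := ideal_dvd_of_pow_dvd_pow hp.out.ne_zero h𝔪0 hz' ⟨_, hprod.symm⟩
  have hprod' : ∏ μ ∈ 𝒵, C μ = W ^ p := by
    have hm0 : 𝔪 ^ p ≠ 0 := pow_ne_zero _ h𝔪0
    refine mul_left_cancel₀ hm0 ?_
    rw [hprod, hW, mul_pow]
  obtain ⟨D, hD⟩ := Finset.exists_eq_pow_of_mul_eq_pow_of_coprime hpair hprod' η hη
  obtain ⟨E, hE⟩ := Finset.exists_eq_pow_of_mul_eq_pow_of_coprime hpair hprod' 1 h1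
  set I : Ideal (𝓞 K) := 𝔪 * D * E ^ (p - 1) with hI
  have hIp : I ^ p = Ideal.span {F η * F 1 ^ (p - 1)} := by
    obtain ⟨q, hq⟩ : ∃ q, p = q + 1 := ⟨p - 1, by have := hp.out.pos; omega⟩
    rw [← Ideal.span_singleton_mul_span_singleton, ← Ideal.span_singleton_pow, hC η hη, hC 1 h1,
      hD, hE, hI]
    subst hq
    simp only [Nat.add_sub_cancel]
    rw [mul_pow, mul_pow, mul_pow, ← pow_mul, ← pow_mul, pow_succ 𝔪 q, Nat.mul_comm q]
    ring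
  obtain ⟨a, ha⟩ := (hreg I ⟨⟨_, hIp⟩⟩).principal
  rw [← Ideal.span] at ha
  rw [ha, Ideal.span_singleton_pow, Ideal.span_singleton_eq_span_singleton] at hIp
  obtain ⟨u, hu⟩ := hIp
  exact ⟨u, a, by rw [← hu]; ring⟩

include hK hζ in
/-- Kummer's lemma turns a twisted equation into a Fermat equation. -/
theorem untwist
    (hkummer : ∀ u : (𝓞 K)ˣ, (∃ n : ℤ, (p : 𝓞 K) ∣ (u : 𝓞 K) - n) → ∃ v : (𝓞 K)ˣ, u = v ^ p)
    {X Y W : 𝓞 K} {e : (𝓞 K)ˣ} (hY : ¬ π ∣ Y) (hW : (p : 𝓞 K) ∣ W)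
    (h : X ^ p + (e : 𝓞 K) * Y ^ p = W) :
    ∃ v : (𝓞 K)ˣ, e = v ^ p := by
  apply hkummer
  obtain ⟨nX, hnX⟩ := exists_int_dvd_pow_sub (p := p) X
  obtain ⟨nY, hnY⟩ := exists_int_dvd_pow_sub (p := p) Y
  have hπp : π ∣ (p : 𝓞 K) := hζ.toInteger_sub_one_dvd_prime'
  have hnY' : ¬ (p : ℤ) ∣ nY := fun hd => hY <| by
    have h1 : π ∣ (nY : 𝓞 K) :=
      (IsCyclotomicExtension.Rat.zeta_sub_one_dvd_intCast_iff' p hζ).2 hd
    have h2 := dvd_add (hπp.trans hnY) h1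
    rw [sub_add_cancel] at h2
    exact hζ.zeta_sub_one_prime'.dvd_of_dvd_pow h2
  obtain ⟨l, k, hkl⟩ := (Prime.coprime_iff_not_dvd (Nat.prime_iff_prime_int.1 hp.out)).2 hnY'
  refine ⟨-k * nX, ?_⟩
  have hkl' : (l : 𝓞 K) * p + (k : 𝓞 K) * nY = 1 := by
    have := congrArg (fun n : ℤ => (n : 𝓞 K)) hkl
    push_cast at this
    exact this
  obtain ⟨s, hs⟩ := hnX
  obtain ⟨t, ht⟩ := hnY
  obtain ⟨r, hr⟩ := hW
  refine ⟨(e : 𝓞 K) * l + k * r - k * s - k * e * t, ?_⟩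
  push_cast
  linear_combination -(e : 𝓞 K) * hkl' + (k : 𝓞 K) * h - (k : 𝓞 K) * hs -
    (k : 𝓞 K) * (e : 𝓞 K) * ht + (k : 𝓞 K) * hr

include hK hζ in
/-- One step of the descent. -/
theorem descent_step (hodd : Odd p)
    (hreg : ∀ I : Ideal (𝓞 K), (I ^ p).IsPrincipal → I.IsPrincipal)
    (hkummer : ∀ u : (𝓞 K)ˣ, (∃ n : ℤ, (p : 𝓞 K) ∣ (u : 𝓞 K) - n) → ∃ v : (𝓞 K)ˣ, u = v ^ p)
    {m : ℕ} {x y z : 𝓞 K} {ε : (𝓞 K)ˣ} (hy : ¬ π ∣ y) (hz : ¬ π ∣ z)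
    {A : 𝓞 K → 𝓞 K} (hA : ∀ η ∈ 𝒵, x + η * y = π * A η) (h0 : π ∣ A 1)
    (hprodA : ∏ η ∈ 𝒵, A η = (ε : 𝓞 K) * (π ^ m * z) ^ p) :
    1 ≤ m ∧ ∃ (x' y' z' : 𝓞 K) (ε' : (𝓞 K)ˣ), ¬ π ∣ y' ∧ ¬ π ∣ z' ∧
      x' ^ p + y' ^ p = (ε' : 𝓞 K) * (π ^ m * z') ^ p := by
  classical
  have hπ : Prime π := hζ.zeta_sub_one_prime'
  have hprim := hζ.toInteger_isPrimitiveRoot
  have h1 : (1 : 𝓞 K) ∈ 𝒵 := by simp [mem_nthRootsFinset hp.out.pos]
  have hz0 : z ≠ 0 := fun h => hz (h ▸ dvd_zero _)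
  have hp3 : 3 ≤ p := by
    have := hp.out.two_le
    rcases hodd with ⟨q, hq⟩
    omega
  have hother : ∀ η ∈ 𝒵, η ≠ 1 → ¬ π ∣ A η := by
    intro η hη hne hd
    obtain ⟨w, hw⟩ := hprim.nthRootsFinset_pairwise_associated_sub_one_sub_of_prime hp.out
      hη h1 hne
    have hAA : (w : 𝓞 K) * y = A η - A 1 := by
      refine mul_left_cancel₀ hπ.ne_zero ?_
      linear_combination hA η hη - hA 1 h1 + y * hw
    have : π ∣ (w : 𝓞 K) * y := hAA ▸ dvd_sub hd h0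
    rcases hπ.dvd_or_dvd this with h' | h'
    · exact hπ.not_isUnit (isUnit_of_dvd_unit h' w.isUnit)
    · exact hy h'
  have hsplit := Finset.mul_prod_erase 𝒵 A h1
  have hrest : ¬ π ∣ ∏ η ∈ (𝒵).erase 1, A η := by
    rw [hπ.dvd_finsetProd_iff]
    rintro ⟨η, hη, hd⟩
    exact hother η (Finset.mem_of_mem_erase hη) (Finset.ne_of_mem_erase hη) hd
  have hm : 1 ≤ m := by
    by_contra hm
    have hm0 : m = 0 := by omega
    have h2 : π ∣ (ε : 𝓞 K) * z ^ p := by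
      have : π ∣ ∏ η ∈ 𝒵, A η := h0.trans (Finset.dvd_prod_of_mem A h1)
      rw [hprodA, hm0, pow_zero, one_mul] at this
      exact this
    rcases hπ.dvd_or_dvd h2 with h' | h'
    · exact hπ.not_isUnit (isUnit_of_dvd_unit h' ε.isUnit)
    · exact hz (hπ.dvd_of_dvd_pow h')
  refine ⟨hm, ?_⟩
  have hdvdA : π ^ (m * p) ∣ A 1 := by
    refine hπ.pow_dvd_of_dvd_mul_right (m * p) hrest ?_
    rw [hsplit, hprodA, mul_pow, ← pow_mul]
    exact dvd_mul_of_dvd_right (dvd_mul_right _ _) _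
  obtain ⟨B, hB⟩ := hdvdA
  set F : 𝓞 K → 𝓞 K := fun η => if η = 1 then B else A η with hFdef
  have hF1 : F 1 = B := by simp [hFdef]
  have hFne : ∀ η, η ≠ 1 → F η = A η := fun η h => by simp [hFdef, h]
  have hAF : ∀ η ∈ 𝒵, ∃ j ≤ m * p, A η = π ^ j * F η := by
    intro η hη
    by_cases he : η = 1
    · exact ⟨m * p, le_rfl, by rw [he, hF1, hB]⟩
    · exact ⟨0, Nat.zero_le _, by rw [hFne η he, pow_zero, one_mul]⟩
  have hprodF : ∏ η ∈ 𝒵, F η = (ε : 𝓞 K) * z ^ p := by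
    rw [← Finset.mul_prod_erase 𝒵 F h1, hF1,
      Finset.prod_congr rfl (fun η hη => hFne η (Finset.ne_of_mem_erase hη))]
    refine mul_left_cancel₀ (pow_ne_zero (m * p) hπ.ne_zero) ?_
    rw [← mul_assoc, ← hB, hsplit, hprodA, mul_pow, ← pow_mul]
    ring
  have hBndvd : ¬ π ∣ B := by
    intro hd
    have : π ∣ (ε : 𝓞 K) * z ^ p := by
      rw [← hprodF]
      exact (hF1.symm ▸ hd).trans (Finset.dvd_prod_of_mem F h1)
    rcases hπ.dvd_or_dvd this with h' | h'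
    · exact hπ.not_isUnit (isUnit_of_dvd_unit h' ε.isUnit)
    · exact hz (hπ.dvd_of_dvd_pow h')
  -- the two auxiliary roots
  have hz1 : hζ.toInteger ∈ 𝒵 := hprim.mem_nthRootsFinset hp.out.pos
  have hz2 : hζ.toInteger ^ 2 ∈ 𝒵 := by
    rw [mem_nthRootsFinset hp.out.pos, ← pow_mul, mul_comm, pow_mul, hprim.pow_eq_one, one_pow]
  have hz1ne : hζ.toInteger ≠ 1 := hprim.ne_one hp.out.one_lt
  have hz2ne : hζ.toInteger ^ 2 ≠ 1 := hprim.pow_ne_one_of_pos_of_lt (by decide) (by omega)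
  obtain ⟨u1, a1, ha1⟩ := factor_eq_unit_mul_pow hζ hreg hy hA hAF hprodF hz0 hz1
  obtain ⟨u2, a2, ha2⟩ := factor_eq_unit_mul_pow hζ hreg hy hA hAF hprodF hz0 hz2
  rw [hF1, hFne _ hz1ne] at ha1
  rw [hF1, hFne _ hz2ne] at ha2
  have ha2ndvd : ¬ π ∣ a2 := by
    intro hd
    have : π ∣ A (hζ.toInteger ^ 2) * B ^ (p - 1) := by
      rw [ha2]
      exact dvd_mul_of_dvd_right (dvd_pow hd hp.out.ne_zero) _
    rcases hπ.dvd_or_dvd this with h' | h'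
    · exact hother _ hz2 hz2ne h'
    · exact hBndvd (hπ.dvd_of_dvd_pow h')
  have hrel : (1 + hζ.toInteger) * A hζ.toInteger - A (hζ.toInteger ^ 2) =
      hζ.toInteger * π ^ (m * p) * B := by
    refine mul_left_cancel₀ hπ.ne_zero ?_
    linear_combination -(1 + hζ.toInteger) * hA _ hz1 + hA _ hz2 + hζ.toInteger * hA 1 h1
      + hζ.toInteger * π * hB
  have hrel' : (1 + hζ.toInteger) * ((u1 : 𝓞 K) * a1 ^ p) - (u2 : 𝓞 K) * a2 ^ p =
      hζ.toInteger * (π ^ m * B) ^ p := by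
    rw [← ha1, ← ha2, mul_pow, ← pow_mul, show B ^ p = B * B ^ (p - 1) from
      (mul_pow_sub_one hp.out.ne_zero B).symm]
    linear_combination B ^ (p - 1) * hrel
  obtain ⟨w, hw⟩ : IsUnit (1 + hζ.toInteger) := by
    have := hprim.geom_sum_isUnit' (j := 2)
    refine (hprim.geom_sum_isUnit hp.out.two_le (j := 2) ?_) |> fun h => by
      simpa [Finset.sum_range_succ] using h
    exact (Nat.coprime_primes Nat.prime_two hp.out).2 (by omega)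
  obtain ⟨zu, hzu⟩ : IsUnit hζ.toInteger := hprim.isUnit hp.out.ne_zero
  set d : (𝓞 K)ˣ := (w * u1)⁻¹ with hd
  have hdinv : (d : 𝓞 K) * ((1 + hζ.toInteger) * (u1 : 𝓞 K)) = 1 := by
    rw [← hw, ← Units.val_mul, ← Units.val_mul, hd, inv_mul_cancel, Units.val_one]
  have heq : a1 ^ p + ((d * u2 : (𝓞 K)ˣ) : 𝓞 K) * (-a2) ^ p =
      ((d * zu : (𝓞 K)ˣ) : 𝓞 K) * (π ^ m * B) ^ p := by
    rw [hodd.neg_pow, Units.val_mul, Units.val_mul, hzu]
    linear_combination (d : 𝓞 K) * hrel' - a1 ^ p * hdinv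
  have hY : ¬ π ∣ -a2 := by rwa [dvd_neg]
  have hWp : (p : 𝓞 K) ∣ ((d * zu : (𝓞 K)ˣ) : 𝓞 K) * (π ^ m * B) ^ p := by
    refine dvd_mul_of_dvd_right ?_ _
    rw [mul_pow, ← pow_mul]
    refine dvd_mul_of_dvd_left ?_ _
    refine (IsCyclotomicExtension.Rat.associated_zeta_sub_one_pow_prime p hζ).symm.dvd.trans
      (pow_dvd_pow _ ?_)
    calc p - 1 ≤ 1 * p := by omega
      _ ≤ m * p := Nat.mul_le_mul_right p hm
  obtain ⟨v, hv⟩ := untwist hζ hkummer hY hWp heq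
  refine ⟨a1, (v : 𝓞 K) * -a2, B, d * zu, ?_, hBndvd, ?_⟩
  · intro h'
    rcases hπ.dvd_or_dvd h' with h'' | h''
    · exact hπ.not_isUnit (isUnit_of_dvd_unit h'' v.isUnit)
    · exact hY h''
  · rw [mul_pow, ← Units.val_pow_eq_pow_val, ← hv]
    exact heq

include hK hζ in
/-- No solution of `x ^ p + y ^ p = ε * (π ^ (m + 1) * z) ^ p` with `π ∤ y * z`. -/
theorem caseTwo_generalised (hodd : Odd p)
    (hreg : ∀ I : Ideal (𝓞 K), (I ^ p).IsPrincipal → I.IsPrincipal)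
    (hkummer : ∀ u : (𝓞 K)ˣ, (∃ n : ℤ, (p : 𝓞 K) ∣ (u : 𝓞 K) - n) → ∃ v : (𝓞 K)ˣ, u = v ^ p)
    (m : ℕ) : ∀ (x y z : 𝓞 K) (ε : (𝓞 K)ˣ), ¬ π ∣ y → ¬ π ∣ z →
      x ^ p + y ^ p ≠ (ε : 𝓞 K) * (π ^ (m + 1) * z) ^ p := by
  classical
  induction m using Nat.strong_induction_on with
  | _ m ih =>
  intro x y z ε hy hz heq
  have hπ : Prime π := hζ.zeta_sub_one_prime'
  have hprim := hζ.toInteger_isPrimitiveRoot
  have h1 : (1 : 𝓞 K) ∈ 𝒵 := by simp [mem_nthRootsFinset hp.out.pos]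
  have hprod : ∏ η ∈ 𝒵, (x + η * y) = (ε : 𝓞 K) * (π ^ (m + 1) * z) ^ p :=
    (hprim.pow_add_pow_eq_prod_add_mul x y hodd).symm.trans heq
  have hall : ∀ η ∈ 𝒵, ∃ a : 𝓞 K, x + η * y = π * a := by
    have : π ∣ ∏ η ∈ 𝒵, (x + η * y) := by
      rw [hprod]
      exact dvd_mul_of_dvd_right (dvd_pow (dvd_mul_of_dvd_left (dvd_pow_self _ (by omega)) _)
        hp.out.ne_zero) _
    rw [hπ.dvd_finsetProd_iff] at this
    obtain ⟨η₁, hη₁, hd⟩ := this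
    intro η hη
    have h2 := hprim.sub_one_dvd_sub hp.out hη hη₁
    have h3 : x + η * y = (x + η₁ * y) + (η - η₁) * y := by ring
    exact h3 ▸ dvd_add hd (dvd_mul_of_dvd_left h2 _)
  choose! A hA using hall
  have hprodA : ∏ η ∈ 𝒵, A η = (ε : 𝓞 K) * (π ^ m * z) ^ p := by
    refine mul_left_cancel₀ (pow_ne_zero p hπ.ne_zero) ?_
    calc π ^ p * ∏ η ∈ 𝒵, A η = ∏ η ∈ 𝒵, (π * A η) := by
          rw [Finset.prod_mul_distrib, Finset.prod_const, hprim.card_nthRootsFinset]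
      _ = ∏ η ∈ 𝒵, (x + η * y) := Finset.prod_congr rfl fun η hη => (hA η hη).symm
      _ = _ := by
          rw [hprod, pow_succ' π m, mul_assoc, mul_pow π]
          exact mul_left_comm _ _ _
  -- residues mod `π` of the `A η` are pairwise distinct, so one of them vanishes
  choose n hn using fun a : 𝓞 K => exists_int_zeta_sub_one_dvd_sub hζ a
  have hinj : ∀ μ ∈ 𝒵, ∀ ν ∈ 𝒵, (n (A μ) : ZMod p) = n (A ν) → μ = ν := by
    intro μ hμ ν hν he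
    by_contra hne
    obtain ⟨w, hw⟩ := hprim.nthRootsFinset_pairwise_associated_sub_one_sub_of_prime hp.out
      hμ hν hne
    have hAA : (w : 𝓞 K) * y = A μ - A ν := by
      refine mul_left_cancel₀ hπ.ne_zero ?_
      linear_combination hA μ hμ - hA ν hν + y * hw
    have hpd : (p : ℤ) ∣ n (A μ) - n (A ν) := by
      rw [← ZMod.intCast_zmod_eq_zero_iff_dvd]
      push_cast
      exact sub_eq_zero.2 he
    have h' : π ∣ ((n (A μ) - n (A ν) : ℤ) : 𝓞 K) :=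
      (IsCyclotomicExtension.Rat.zeta_sub_one_dvd_intCast_iff' p hζ).2 hpd
    have : π ∣ (w : 𝓞 K) * y := by
      rw [hAA, show A μ - A ν = (A μ - n (A μ)) - (A ν - n (A ν)) +
        ((n (A μ) - n (A ν) : ℤ) : 𝓞 K) from by push_cast; ring]
      exact dvd_add (dvd_sub (hn _) (hn _)) h'
    rcases hπ.dvd_or_dvd this with h'' | h''
    · exact hπ.not_isUnit (isUnit_of_dvd_unit h'' w.isUnit)
    · exact hy h''
  obtain ⟨η₀, hη₀, hη₀0⟩ : ∃ η ∈ 𝒵, (n (A η) : ZMod p) = 0 := by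
    have himg : (𝒵).image (fun η => (n (A η) : ZMod p)) = Finset.univ := by
      refine Finset.eq_univ_of_card _ ?_
      rw [Finset.card_image_of_injOn fun μ hμ ν hν he => hinj μ hμ ν hν he,
        hprim.card_nthRootsFinset, ZMod.card]
    have : (0 : ZMod p) ∈ (𝒵).image (fun η => (n (A η) : ZMod p)) := himg ▸ Finset.mem_univ _
    exact Finset.mem_image.1 this
  have hdA : π ∣ A η₀ := by
    have h' : π ∣ (n (A η₀) : 𝓞 K) :=
      (IsCyclotomicExtension.Rat.zeta_sub_one_dvd_intCast_iff' p hζ).2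
        ((ZMod.intCast_zmod_eq_zero_iff_dvd _ _).1 hη₀0)
    have h2 := dvd_add (hn (A η₀)) h'
    rwa [sub_add_cancel] at h2
  -- rotate `y` by `η₀`
  have hη₀p : η₀ ^ p = 1 := (mem_nthRootsFinset hp.out.pos 1).1 hη₀
  have hη₀u : IsUnit η₀ := IsUnit.of_pow_eq_one hη₀p hp.out.ne_zero
  have hmul : ∀ η ∈ 𝒵, η₀ * η ∈ 𝒵 := by
    intro η hη
    rw [mem_nthRootsFinset hp.out.pos] at hη ⊢
    rw [mul_pow, hη₀p, hη, mul_one]
  have hy' : ¬ π ∣ η₀ * y := fun h' => hy (hη₀u.dvd_mul_left.1 h')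
  have hprodA' : ∏ η ∈ 𝒵, A (η₀ * η) = (ε : 𝓞 K) * (π ^ m * z) ^ p := by
    rw [← hprodA]
    refine Finset.prod_bij (fun η _ => η₀ * η) hmul
      (fun a _ b _ hab => hη₀u.mul_left_cancel hab) ?_ (fun _ _ => rfl)
    intro b hb
    refine ⟨η₀ ^ (p - 1) * b, ?_, ?_⟩
    · rw [mem_nthRootsFinset hp.out.pos] at hb ⊢
      rw [mul_pow, ← pow_mul, mul_comm (p - 1), pow_mul, hη₀p, one_pow, hb, mul_one]
    · rw [← mul_assoc, mul_pow_sub_one hp.out.ne_zero, hη₀p, one_mul]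
  obtain ⟨hm, x', y', z', ε', hy'', hz'', heq'⟩ := descent_step hζ hodd hreg hkummer
    (x := x) (y := η₀ * y) (z := z) (ε := ε) (A := fun η => A (η₀ * η)) hy' hz
    (fun η hη => by rw [← hA _ (hmul η hη)]; ring) (by simpa using hdA) hprodA'
  obtain ⟨k, rfl⟩ : ∃ k, m = k + 1 := ⟨m - 1, by omega⟩
  exact ih k (Nat.lt_succ_self k) x' y' z' ε' hy'' hz'' heq'

include hK in
/-- Case II of FLT for regular primes, over `ℤ`. -/
theorem caseTwo (hodd : Odd p)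
    (hreg : ∀ I : Ideal (𝓞 K), (I ^ p).IsPrincipal → I.IsPrincipal)
    (hkummer : ∀ u : (𝓞 K)ˣ, (∃ n : ℤ, (p : 𝓞 K) ∣ (u : 𝓞 K) - n) → ∃ v : (𝓞 K)ˣ, u = v ^ p)
    {a b c : ℤ} (hb : ¬ (p : ℤ) ∣ b) (hc : (p : ℤ) ∣ c) (hc0 : c ≠ 0) :
    a ^ p + b ^ p ≠ c ^ p := by
  intro heq
  have hζ : IsPrimitiveRoot (IsCyclotomicExtension.zeta p ℚ K) p :=
    IsCyclotomicExtension.zeta_spec p ℚ K
  have hfin : FiniteMultiplicity (p : ℤ) c :=
    Int.finiteMultiplicity_iff.2 ⟨by simpa using hp.out.ne_one, hc0⟩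
  obtain ⟨c', hcc', hc'⟩ := hfin.exists_eq_pow_mul_and_not_dvd
  set j := multiplicity (p : ℤ) c with hj
  have hj1 : 1 ≤ j := by
    by_contra hcon
    have hj0 : j = 0 := by omega
    apply hc'
    rw [hj0, pow_zero, one_mul] at hcc'
    rwa [← hcc']
  obtain ⟨v, hv⟩ := IsCyclotomicExtension.Rat.associated_zeta_sub_one_pow_prime p hζ
  have hjpos : 0 < (p - 1) * j := Nat.mul_pos (by have := hp.out.two_le; omega) hj1
  obtain ⟨m, hm⟩ : ∃ m, (p - 1) * j = m + 1 := ⟨(p - 1) * j - 1, by omega⟩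
  have hint : ∀ n : ℤ, ¬ (p : ℤ) ∣ n → ¬ hζ.toInteger - 1 ∣ (n : 𝓞 K) := fun n hn h' =>
    hn ((IsCyclotomicExtension.Rat.zeta_sub_one_dvd_intCast_iff' p hζ).1 h')
  refine caseTwo_generalised hζ hodd hreg hkummer m (a : 𝓞 K) (b : 𝓞 K) (c' : 𝓞 K)
    ((v ^ j) ^ p) (hint b hb) (hint c' hc') ?_
  have h' := congrArg (fun n : ℤ => (n : 𝓞 K)) heq
  push_cast at h'
  rw [h', show (c : 𝓞 K) = (p : 𝓞 K) ^ j * (c' : 𝓞 K) by rw [hcc']; push_cast; ring, ← hv,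
    ← hm, pow_mul]
  push_cast
  ring

end FLTAgent.Regular
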