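import Mathlib.Algebra.Ring.GeomSum
import Mathlib.RingTheory.Int.Basic
import Mathlib.Algebra.Field.ZMod
import Mathlib.Tactic.Ring
import Mathlib.Tactic.LinearCombination

/-!
# Case I of Fermat's Last Theorem by Sophie Germain's criterion

If there is an auxiliary prime `q` such that no two nonzero `p`-th powers modulo `q` differ by
one and `p` is not a `p`-th power modulo `q`, then `x^p + y^p + z^p = 0` has no solution in
pairwise coprime integers not divisible by `p`.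
-/

set_option autoImplicit false

namespace FLTAgent.Regular

/-- Factorisation step: `y + z` is a `p`-th power, and so is the cofactor. -/
theorem germain_factor {p : ℕ} (hp : p.Prime) (hodd : Odd p) {x y z : ℤ}
    (hyz : IsCoprime y z) (hx : ¬ (p : ℤ) ∣ x) (h : x ^ p + y ^ p + z ^ p = 0) :
    ∃ a t : ℤ, y + z = a ^ p ∧ (∃ k : ℤ, t ^ p = (p : ℤ) * y ^ (p - 1) + (y + z) * k) ∧
      t ^ p * (y + z) = y ^ p + z ^ p := by
  set S : ℤ := ∑ i ∈ Finset.range p, y ^ i * (-z) ^ (p - 1 - i) with hS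
  have hprod : S * (y + z) = y ^ p + z ^ p := by
    have := geom_sum₂_mul y (-z) p
    rw [hodd.neg_pow, sub_neg_eq_add, sub_neg_eq_add] at this
    exact this
  have hcongr : (y + z) ∣ S - (p : ℤ) * y ^ (p - 1) := by
    have hrw : S - (p : ℤ) * y ^ (p - 1) =
        ∑ i ∈ Finset.range p, y ^ i * ((-z) ^ (p - 1 - i) - y ^ (p - 1 - i)) := by
      simp only [mul_sub, Finset.sum_sub_distrib, hS]
      congr 1
      rw [Finset.sum_congr rfl (g := fun _ => y ^ (p - 1))]
      · simp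
      · intro i hi
        rw [← pow_add]
        congr 1
        have := Finset.mem_range.1 hi
        omega
    rw [hrw]
    refine Finset.dvd_sum fun i _ => dvd_mul_of_dvd_right ?_ _
    refine dvd_trans ?_ (sub_dvd_pow_sub_pow (-z) y (p - 1 - i))
    exact ⟨-1, by ring⟩
  obtain ⟨k, hk⟩ := hcongr
  have hcop_y : IsCoprime (y + z) y := by
    rw [add_comm]
    exact (IsCoprime.add_mul_left_left (z := (1 : ℤ)) hyz.symm |> fun h' => by simpa using h')
  have hcop_p : IsCoprime (y + z) (p : ℤ) := by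
    rw [isCoprime_comm]
    refine (Prime.coprime_iff_not_dvd (Nat.prime_iff_prime_int.1 hp)).2 fun hdvd => hx ?_
    have hxp : x ^ p = -(S * (y + z)) := by rw [hprod]; linear_combination h
    have : (p : ℤ) ∣ x ^ p := hxp ▸ dvd_neg.2 (dvd_mul_of_dvd_right hdvd _)
    exact (Nat.prime_iff_prime_int.1 hp).dvd_of_dvd_pow this
  have hcop : IsCoprime (y + z) S := by
    have hS' : S = (p : ℤ) * y ^ (p - 1) + (y + z) * k := by linear_combination hk
    rw [hS']
    exact (IsCoprime.mul_right hcop_p hcop_y.pow_right).add_mul_left_right k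
  have hpow : (y + z) * S = (-x) ^ p := by
    rw [hodd.neg_pow, mul_comm, hprod]
    linear_combination h
  obtain ⟨a, ha⟩ := Int.eq_pow_of_mul_eq_pow_odd_left hcop hodd hpow
  obtain ⟨t, ht⟩ := Int.eq_pow_of_mul_eq_pow_odd_right hcop hodd hpow
  exact ⟨a, t, ha, ⟨k, by rw [← ht]; linear_combination hk⟩, by rw [← ht]; exact hprod⟩

theorem germain_aux {p q : ℕ} [Fact q.Prime] (hp : p.Prime) (hodd : Odd p)
    (hcons : ∀ a b : ZMod q, a ≠ 0 → b ≠ 0 → a ^ p + b ^ p + 1 ≠ 0)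
    (hnpow : ∀ t : ZMod q, t ^ p ≠ (p : ZMod q))
    {x y z : ℤ} (hxy : IsCoprime x y) (hyz : IsCoprime y z) (hxz : IsCoprime x z)
    (h : x ^ p + y ^ p + z ^ p = 0) (hx : ¬ (p : ℤ) ∣ x) (hy : ¬ (p : ℤ) ∣ y)
    (hz : ¬ (p : ℤ) ∣ z) (hqx : (q : ℤ) ∣ x) : False := by
  obtain ⟨a, t, ha, ⟨k, hk⟩, -⟩ := germain_factor hp hodd hyz hx h
  obtain ⟨b, -, hb, -, -⟩ :=
    germain_factor (x := y) (y := x) (z := z) hp hodd hxz hy (by linear_combination h)
  obtain ⟨c, s, hc, -, hs⟩ :=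
    germain_factor (x := z) (y := x) (z := y) hp hodd hxy hz (by linear_combination h)
  have hne : ∀ {u : ℤ}, IsCoprime x u → (u : ZMod q) ≠ 0 := fun {u} hu hu0 => by
    have hqu := (ZMod.intCast_zmod_eq_zero_iff_dvd u q).1 hu0
    have hunit := hu.isUnit_of_dvd' hqx hqu
    exact (Nat.prime_iff_prime_int.1 (Fact.out : q.Prime)).not_isUnit hunit
  have hx0 : (x : ZMod q) = 0 := (ZMod.intCast_zmod_eq_zero_iff_dvd x q).2 hqx
  have hyq := hne hxy
  have hzq := hne hxz
  have ha' := congrArg (fun n : ℤ => (n : ZMod q)) ha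
  have hb' := congrArg (fun n : ℤ => (n : ZMod q)) hb
  have hc' := congrArg (fun n : ℤ => (n : ZMod q)) hc
  have hs' := congrArg (fun n : ℤ => (n : ZMod q)) hs
  have hk' := congrArg (fun n : ℤ => (n : ZMod q)) hk
  push_cast at ha' hb' hc' hs' hk'
  rw [hx0] at hb' hc' hs'
  have hp0 : p ≠ 0 := hp.ne_zero
  simp only [zero_add, zero_pow hp0] at hb' hc' hs'
  have hb0 : (b : ZMod q) ≠ 0 := fun h0 => hzq (by rw [hb', h0, zero_pow hp0])
  have hc0 : (c : ZMod q) ≠ 0 := fun h0 => hyq (by rw [hc', h0, zero_pow hp0])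
  have ha0 : (a : ZMod q) = 0 := by
    by_contra ha0
    refine hcons ((b : ZMod q) / -(a : ZMod q)) ((c : ZMod q) / -(a : ZMod q))
      (div_ne_zero hb0 (neg_ne_zero.2 ha0)) (div_ne_zero hc0 (neg_ne_zero.2 ha0)) ?_
    have hA : (-(a : ZMod q)) ^ p ≠ 0 := pow_ne_zero _ (neg_ne_zero.2 ha0)
    have e : (b : ZMod q) ^ p + (c : ZMod q) ^ p + (-(a : ZMod q)) ^ p = 0 := by
      rw [hodd.neg_pow]
      linear_combination ha' - hb' - hc'
    rw [div_pow, div_pow, ← add_div, div_add_one hA, e, zero_div]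
  rw [ha0, zero_pow hp0] at ha'
  rw [ha', zero_mul, add_zero] at hk'
  have hsy : (s : ZMod q) ^ p = (y : ZMod q) ^ (p - 1) := by
    apply mul_right_cancel₀ hyq
    rw [← pow_succ, Nat.sub_add_cancel hp.one_le]
    exact hs'
  have hs0 : (s : ZMod q) ≠ 0 := fun h0 => by
    rw [h0, zero_pow hp0] at hsy
    exact pow_ne_zero _ hyq hsy.symm
  refine hnpow ((t : ZMod q) / (s : ZMod q)) ?_
  rw [div_pow, hk', hsy, mul_div_assoc, div_self (pow_ne_zero _ hyq), mul_one]

/-- **Sophie Germain's criterion** for case I of Fermat's Last Theorem. -/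
theorem caseOne_of_sophieGermain {p : ℕ} (q : ℕ) [Fact q.Prime] (hp : p.Prime) (hodd : Odd p)
    (hcons : ∀ a b : ZMod q, a ≠ 0 → b ≠ 0 → a ^ p + b ^ p + 1 ≠ 0)
    (hnpow : ∀ t : ZMod q, t ^ p ≠ (p : ZMod q))
    {x y z : ℤ} (hxy : IsCoprime x y) (hyz : IsCoprime y z) (hxz : IsCoprime x z)
    (h : x ^ p + y ^ p + z ^ p = 0) (hx : ¬ (p : ℤ) ∣ x) (hy : ¬ (p : ℤ) ∣ y)
    (hz : ¬ (p : ℤ) ∣ z) : False := by
  by_cases hqx : (q : ℤ) ∣ x
  · exact germain_aux hp hodd hcons hnpow hxy hyz hxz h hx hy hz hqx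
  by_cases hqy : (q : ℤ) ∣ y
  · exact germain_aux hp hodd hcons hnpow (x := y) (y := z) (z := x) hyz hxz.symm hxy.symm
      (by linear_combination h) hy hz hx hqy
  by_cases hqz : (q : ℤ) ∣ z
  · exact germain_aux hp hodd hcons hnpow (x := z) (y := x) (z := y) hxz.symm hxy hyz.symm
      (by linear_combination h) hz hx hy hqz
  have hX : (x : ZMod q) ≠ 0 := fun e => hqx ((ZMod.intCast_zmod_eq_zero_iff_dvd x q).1 e)
  have hY : (y : ZMod q) ≠ 0 := fun e => hqy ((ZMod.intCast_zmod_eq_zero_iff_dvd y q).1 e)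
  have hZ : (z : ZMod q) ≠ 0 := fun e => hqz ((ZMod.intCast_zmod_eq_zero_iff_dvd z q).1 e)
  refine hcons ((x : ZMod q) / z) ((y : ZMod q) / z) (div_ne_zero hX hZ) (div_ne_zero hY hZ) ?_
  have e : (x : ZMod q) ^ p + (y : ZMod q) ^ p + (z : ZMod q) ^ p = 0 := by
    have := congrArg (fun n : ℤ => (n : ZMod q)) h
    push_cast at this
    exact this
  rw [div_pow, div_pow, ← add_div, div_add_one (pow_ne_zero _ hZ), e, zero_div]

end FLTAgent.Regular
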