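import Fermat.Prelude.Def_FLTPrelim_FreyPackage
import Fermat.Agent.Regular.SophieGermain
import Fermat.Agent.Regular.CaseTwo
import Mathlib.Tactic.NormNum.Prime

/-!
# No Frey package with a small regular prime exponent

Case II of Kummer's descent and Sophie Germain's criterion exclude a Frey package of exponent `p`
(`freyPackage_false`); the auxiliary primes for `p = 5, 7, 11, 13` are checked here.
-/

set_option autoImplicit false

open NumberField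

namespace FLTAgent.Regular

/-- A Frey package is impossible if case II holds (regularity and Kummer's lemma) and Sophie
Germain's criterion applies to an auxiliary prime `q`. -/
theorem freyPackage_false (P : FreyPackage) {p : ℕ} [hp : Fact p.Prime] (hPp : P.p = p)
    (hodd : Odd p) {K : Type*} [Field K] [NumberField K] [IsCyclotomicExtension {p} ℚ K]
    (hreg : ∀ I : Ideal (𝓞 K), (I ^ p).IsPrincipal → I.IsPrincipal)
    (hkummer : ∀ u : (𝓞 K)ˣ, (∃ n : ℤ, (p : 𝓞 K) ∣ (u : 𝓞 K) - n) → ∃ v : (𝓞 K)ˣ, u = v ^ p)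
    (q : ℕ) [Fact q.Prime]
    (hcons : ∀ a b : ZMod q, a ≠ 0 → b ≠ 0 → a ^ p + b ^ p + 1 ≠ 0)
    (hnpow : ∀ t : ZMod q, t ^ p ≠ (p : ZMod q)) : False := by
  have hFLT := P.hFLT
  rw [hPp] at hFLT
  have hab : IsCoprime P.a P.b := (gcd_isUnit_iff _ _).1 (by rw [P.hgcdab]; exact isUnit_one)
  have hac : IsCoprime P.a P.c := (gcd_isUnit_iff _ _).1 (by rw [P.hgcdac]; exact isUnit_one)
  have hbc : IsCoprime P.b P.c := (gcd_isUnit_iff _ _).1 (by rw [P.hgcdbc]; exact isUnit_one)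
  have hnot : ∀ {u v : ℤ}, IsCoprime u v → (p : ℤ) ∣ u → ¬ (p : ℤ) ∣ v := fun h hu hv =>
    (Nat.prime_iff_prime_int.1 hp.out).not_isUnit (h.isUnit_of_dvd' hu hv)
  by_cases hc : (p : ℤ) ∣ P.c
  · exact caseTwo hodd hreg hkummer (a := P.a) (hnot hbc.symm hc) hc P.hc0 hFLT
  by_cases ha : (p : ℤ) ∣ P.a
  · refine caseTwo hodd hreg hkummer (a := P.c) (b := -P.b) (c := P.a) ?_ ha P.ha0 ?_
    · rw [dvd_neg]; exact hnot hab ha
    · rw [hodd.neg_pow]; linear_combination -hFLT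
  by_cases hb : (p : ℤ) ∣ P.b
  · refine caseTwo hodd hreg hkummer (a := P.c) (b := -P.a) (c := P.b) ?_ hb P.hb0 ?_
    · rw [dvd_neg]; exact hnot hab.symm hb
    · rw [hodd.neg_pow]; linear_combination -hFLT
  refine caseOne_of_sophieGermain q hp.out hodd hcons hnpow hab (z := -P.c) hbc.neg_right
    hac.neg_right ?_ ha hb (by rwa [dvd_neg])
  rw [hodd.neg_pow]
  linear_combination hFLT

/-- Reduce the pairwise condition to the list of `p`-th powers. -/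
theorem consecutive_of_list {q p : ℕ} (L : List (ZMod q))
    (h1 : ∀ a : ZMod q, a ≠ 0 → a ^ p ∈ L)
    (h2 : ∀ u ∈ L, ∀ v ∈ L, u + v + 1 ≠ 0) (a b : ZMod q) (ha : a ≠ 0) (hb : b ≠ 0) :
    a ^ p + b ^ p + 1 ≠ 0 :=
  h2 _ (h1 a ha) _ (h1 b hb)

theorem germain_five : (∀ a b : ZMod 11, a ≠ 0 → b ≠ 0 → a ^ 5 + b ^ 5 + 1 ≠ 0) ∧
    ∀ t : ZMod 11, t ^ 5 ≠ ((5 : ℕ) : ZMod 11) :=
  ⟨consecutive_of_list [1, 10] (by decide) (by decide), by decide⟩

theorem germain_seven : (∀ a b : ZMod 29, a ≠ 0 → b ≠ 0 → a ^ 7 + b ^ 7 + 1 ≠ 0) ∧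
    ∀ t : ZMod 29, t ^ 7 ≠ ((7 : ℕ) : ZMod 29) :=
  ⟨consecutive_of_list [1, 12, 17, 28] (by decide) (by decide), by decide⟩

theorem germain_eleven : (∀ a b : ZMod 23, a ≠ 0 → b ≠ 0 → a ^ 11 + b ^ 11 + 1 ≠ 0) ∧
    ∀ t : ZMod 23, t ^ 11 ≠ ((11 : ℕ) : ZMod 23) :=
  ⟨consecutive_of_list [1, 22] (by decide) (by decide), by decide⟩

theorem germain_thirteen : (∀ a b : ZMod 53, a ≠ 0 → b ≠ 0 → a ^ 13 + b ^ 13 + 1 ≠ 0) ∧
    ∀ t : ZMod 53, t ^ 13 ≠ ((13 : ℕ) : ZMod 53) :=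
  ⟨consecutive_of_list [1, 23, 30, 52] (by decide) (by decide), by decide⟩

end FLTAgent.Regular
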