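import Fermat.Agent.Regular.FreyPrime
import Fermat.Agent.RegularData.Kummer
import Fermat.Agent.RegularData.ClassNumber

/-!
# No Frey package with exponent 5, 7, 11 or 13

`no_freyPackage_five`, ..., `no_freyPackage_thirteen`: `freyPackage_false` at the regular primes
`5, 7, 11, 13`, with the auxiliary primes of Sophie Germain's criterion.  They are used in the
proofs of S10 and S11.
-/

set_option autoImplicit false

open NumberField

namespace FLTAgent.Regular

/-- No Frey package has exponent `5`. -/
theorem no_freyPackage_five (P : FreyPackage) (hPp : P.p = 5) : False :=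
  haveI : Fact (Nat.Prime 5) := ⟨by norm_num⟩
  haveI : Fact (Nat.Prime 11) := ⟨by norm_num⟩
  haveI : IsCyclotomicExtension {5} ℚ (CyclotomicField 5 ℚ) :=
    CyclotomicField.isCyclotomicExtension 5 ℚ
  freyPackage_false P hPp (by decide) (K := CyclotomicField 5 ℚ)
    (FLTAgent.RegularData.regular_five (CyclotomicField 5 ℚ))
    (FLTAgent.RegularData.kummer_five (CyclotomicField 5 ℚ)) 11 germain_five.1 germain_five.2

/-- No Frey package has exponent `7`. -/
theorem no_freyPackage_seven (P : FreyPackage) (hPp : P.p = 7) : False :=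
  haveI : Fact (Nat.Prime 7) := ⟨by norm_num⟩
  haveI : Fact (Nat.Prime 29) := ⟨by norm_num⟩
  haveI : IsCyclotomicExtension {7} ℚ (CyclotomicField 7 ℚ) :=
    CyclotomicField.isCyclotomicExtension 7 ℚ
  freyPackage_false P hPp (by decide) (K := CyclotomicField 7 ℚ)
    (FLTAgent.RegularData.regular_seven (CyclotomicField 7 ℚ))
    (FLTAgent.RegularData.kummer_seven (CyclotomicField 7 ℚ)) 29 germain_seven.1 germain_seven.2

/-- No Frey package has exponent `11`. -/
theorem no_freyPackage_eleven (P : FreyPackage) (hPp : P.p = 11) : False :=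
  haveI : Fact (Nat.Prime 11) := ⟨by norm_num⟩
  haveI : Fact (Nat.Prime 23) := ⟨by norm_num⟩
  haveI : IsCyclotomicExtension {11} ℚ (CyclotomicField 11 ℚ) :=
    CyclotomicField.isCyclotomicExtension 11 ℚ
  freyPackage_false P hPp (by decide) (K := CyclotomicField 11 ℚ)
    (FLTAgent.RegularData.regular_eleven (CyclotomicField 11 ℚ))
    (FLTAgent.RegularData.kummer_eleven (CyclotomicField 11 ℚ)) 23 germain_eleven.1 germain_eleven.2

/-- No Frey package has exponent `13`. -/
theorem no_freyPackage_thirteen (P : FreyPackage) (hPp : P.p = 13) : False :=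
  haveI : Fact (Nat.Prime 13) := ⟨by norm_num⟩
  haveI : Fact (Nat.Prime 53) := ⟨by norm_num⟩
  haveI : IsCyclotomicExtension {13} ℚ (CyclotomicField 13 ℚ) :=
    CyclotomicField.isCyclotomicExtension 13 ℚ
  freyPackage_false P hPp (by decide) (K := CyclotomicField 13 ℚ)
    (FLTAgent.RegularData.regular_thirteen (CyclotomicField 13 ℚ))
    (FLTAgent.RegularData.kummer_thirteen (CyclotomicField 13 ℚ))
    53 germain_thirteen.1 germain_thirteen.2

end FLTAgent.Regular
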